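import Fermat.Agent.FLAT.Defs
import Fermat.Agent.S19.A.Rl
import Fermat.Agent.Common.PlaceBridgeLocal

/-!
# FLAT / [ZL] : basic facts on `ℤ_(ℓ) = GaloisRep.ratLocalizedAt ℓ`
-/

set_option autoImplicit false

noncomputable section

namespace Fermat.Agent.FLAT

variable (ℓ : ℕ) [Fact ℓ.Prime]

/-- `ℤ_(ℓ)` is a principal ideal domain (every ideal is generated by a power of `ℓ`). -/
instance isPrincipalIdealRing_Zl : IsPrincipalIdealRing (Zl ℓ) :=
  S19.isPrincipalIdealRing_Rl ℓ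

/-- every rational number becomes `ℓ`-integral after multiplication by a power of `ℓ`. -/
theorem exists_pow_mul_mem_Zl (q : ℚ) : ∃ n : ℕ, (ℓ : ℚ) ^ n * q ∈ Zl ℓ := by
  have hℓ : ℓ.Prime := Fact.out
  obtain ⟨n, m, hm, hd⟩ := Nat.exists_eq_pow_mul_and_not_dvd q.den_nz ℓ hℓ.ne_one
  refine ⟨n, ?_⟩
  have hm0 : (m : ℚ) ≠ 0 := by
    intro h
    have : m = 0 := by exact_mod_cast h
    exact hm (this ▸ dvd_zero _)
  have hℓ0 : (ℓ : ℚ) ≠ 0 := by exact_mod_cast hℓ.ne_zero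
  have h1 : (ℓ : ℚ) ^ n * q = (q.num : ℚ) / ((m : ℤ) : ℚ) := by
    conv_lhs => rw [← Rat.num_div_den q, hd]
    push_cast
    field_simp
  rw [h1]
  exact S19.div_mem_ratLocalizedAt ℓ q.num m (by exact_mod_cast hm)

variable {ℓ}

/-- `A ∩ ℚ = ℤ_(ℓ)` for a valuation ring `A` of `ℚ̄` above `ℓ`. -/
theorem algebraMap_mem_iff_mem_Zl {A : ValuationSubring Qb} (hA : A.LiesOverPrime ℓ) (q : ℚ) :
    algebraMap ℚ Qb q ∈ A ↔ q ∈ Zl ℓ :=
  ⟨S19.mem_Rl_of_mem A hA q, fun h => S19.algebraMap_Rl_mem A hA ⟨q, h⟩⟩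

omit [Fact ℓ.Prime] in
/-- the structure map `ℤ_(ℓ) → ℚ̄`. -/
theorem algebraMap_Zl_apply (a : Zl ℓ) : algebraMap (Zl ℓ) Qb a = algebraMap ℚ Qb (a : ℚ) := rfl

omit [Fact ℓ.Prime] in
theorem algebraMap_Zl_injective : Function.Injective (algebraMap (Zl ℓ) Qb) := by
  intro a b h
  rw [algebraMap_Zl_apply, algebraMap_Zl_apply] at h
  exact Subtype.ext ((algebraMap ℚ Qb).injective h)

/-- an element of `ℚ̄` fixed by `G_ℚ` is rational. -/
theorem mem_range_of_fixed {y : Qb} (hy : ∀ σ : GQ, σ y = y) : y ∈ (algebraMap ℚ Qb).range :=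
  S19.mem_range_of_fixed y hy

/-- the valuation of `A` is of rank one: powers of an element of the maximal ideal tend to `0`. -/
theorem exists_pow_valuation_le {A : ValuationSubring Qb} (hA : A.LiesOverPrime ℓ) {a b : Qb}
    (ha : A.valuation a < 1) (hb : b ≠ 0) : ∃ n : ℕ, A.valuation a ^ n ≤ A.valuation b := by
  have hℓ : ℓ.Prime := Fact.out
  have hfin : FiniteDimensional ℚ (IntermediateField.adjoin ℚ ({a, b} : Set Qb)) :=
    IntermediateField.finiteDimensional_adjoin (fun x _ => (Algebra.IsAlgebraic.isAlgebraic x).isIntegral)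
  obtain ⟨N, _, _, _, ψ, hψ⟩ :=
    Bridge.exists_galois_model (IntermediateField.adjoin ℚ ({a, b} : Set Qb))
  obtain ⟨x, rfl⟩ := hψ a (IntermediateField.subset_adjoin _ _ (by simp))
  obtain ⟨y, rfl⟩ := hψ b (IntermediateField.subset_adjoin _ _ (by simp))
  set w := Bridge.placeBelow ψ hℓ A hA with hwdef
  have hw : w.asIdeal = Bridge.primeBelow ψ A := rfl
  have hy0 : y ≠ 0 := by
    rintro rfl
    exact hb (map_zero ψ)
  obtain ⟨n, hn⟩ := Bridge.exists_exp_neg_le (F := N) w hy0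
  refine ⟨n, ?_⟩
  have h1 : w.valuation N x < 1 := (Bridge.valuation_lt_one_iff hw).mp ha
  have h2 : w.valuation N x ≤ WithZero.exp (-1 : ℤ) := (Bridge.lt_one_iff_le_exp_neg_one _).mp h1
  have h3 : w.valuation N (x ^ n) ≤ w.valuation N y := by
    rw [map_pow]
    refine le_trans (pow_le_pow_left₀ zero_le h2 n) (le_trans (le_of_eq ?_) hn)
    rw [← WithZero.exp_nsmul]
    simp
  have h4 := (Bridge.valuation_le_iff hw).mpr h3
  rwa [map_pow, map_pow] at h4

/-- every element of `ℚ̄` becomes `A`-integral after multiplication by a power of `ℓ`. -/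
theorem exists_pow_mul_mem {A : ValuationSubring Qb} (hA : A.LiesOverPrime ℓ) (y : Qb) :
    ∃ n : ℕ, (ℓ : Qb) ^ n * y ∈ A := by
  have hℓ : ℓ.Prime := Fact.out
  by_cases hy : y = 0
  · exact ⟨0, by rw [hy, mul_zero]; exact A.zero_mem⟩
  have h1 : A.valuation (ℓ : Qb) < 1 := A.mem_nonunits_iff.mp hA
  obtain ⟨n, hn⟩ := exists_pow_valuation_le hA h1 (inv_ne_zero hy)
  refine ⟨n, ?_⟩
  rw [← A.valuation_le_one_iff, map_mul, map_pow]
  have hv : A.valuation y ≠ 0 := (A.valuation.ne_zero_iff).mpr hy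
  calc A.valuation (ℓ : Qb) ^ n * A.valuation y ≤ A.valuation y⁻¹ * A.valuation y :=
        mul_le_mul_left hn _
    _ = 1 := by rw [map_inv₀, inv_mul_cancel₀ hv]

end Fermat.Agent.FLAT
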