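import Mathlib
import Fermat.Prelude.Def_GaloisRep_Flat
import Fermat.Prelude.Def_FLTPrelim_Ramification

/-!
# FLAT (S19, S32): basic definitions

* `HasFlatModel ℓ V act` : the finite `G_ℚ`-module `V` is the module of `ℚ̄`-points of a finite flat
  commutative group scheme over `ℤ_(ℓ)` (literally the conclusion of S19 / of `IsFlatAt`).
* `box H₁ H₂` : the image of `H₁ ⊗ H₂` in the functions on a product.
* `ComulClosed H` : `h(x + y) ∈ H ⊠ H`.
* `star act σ f` : the semilinear action of `G_ℚ` on functions `V → ℚ̄`.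
* `IsHopfOrder` : Hopf orders over `ℤ_(ℓ)` in the algebra of `G_ℚ`-equivariant functions.
-/

set_option autoImplicit false

noncomputable section

namespace Fermat.Agent.FLAT

/-- `ℚ̄`. -/
abbrev Qb : Type := AlgebraicClosure ℚ

/-- the absolute Galois group of `ℚ`. -/
abbrev GQ : Type := Qb ≃ₐ[ℚ] Qb

/-- `ℤ_(ℓ)`. -/
abbrev Zl (ℓ : ℕ) : Subring ℚ := GaloisRep.ratLocalizedAt ℓ

/-- `V` (with the action `act` of `G_ℚ`) has a finite flat model over `ℤ_(ℓ)`. -/
def HasFlatModel (ℓ : ℕ) (V : Type) [AddCommGroup V] (act : GQ →* AddMonoid.End V) : Prop :=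
  ∃ (H : Type) (_ : CommRing H) (_ : HopfAlgebra (GaloisRep.ratLocalizedAt ℓ) H),
    Module.Finite (GaloisRep.ratLocalizedAt ℓ) H ∧ Module.Flat (GaloisRep.ratLocalizedAt ℓ) H ∧
    Coalgebra.IsCocomm (GaloisRep.ratLocalizedAt ℓ) H ∧
    ∃ e : WithConv (H →ₐ[GaloisRep.ratLocalizedAt ℓ] AlgebraicClosure ℚ) ≃ V,
      (∀ f g, e (f * g) = e f + e g) ∧
      ∀ (σ : AlgebraicClosure ℚ ≃ₐ[ℚ] AlgebraicClosure ℚ)
        (f g : WithConv (H →ₐ[GaloisRep.ratLocalizedAt ℓ] AlgebraicClosure ℚ)),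
        (∀ h : H, g h = σ (f h)) → e g = act σ (e f)

section Box

variable {𝔸 L X Y : Type*} [CommSemiring 𝔸] [CommSemiring L] [Algebra 𝔸 L]

/-- the image of `H₁ ⊗ H₂` in the functions on `X × Y`. -/
def box (H₁ : Submodule 𝔸 (X → L)) (H₂ : Submodule 𝔸 (Y → L)) : Submodule 𝔸 (X × Y → L) :=
  Submodule.span 𝔸 {F | ∃ f ∈ H₁, ∃ g ∈ H₂, F = fun p => f p.1 * g p.2}

/-- `h(x + y) ∈ H ⊠ H` for all `h ∈ H`. -/
def ComulClosed [Add X] (H : Submodule 𝔸 (X → L)) : Prop :=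
  ∀ h ∈ H, (fun p : X × X => h (p.1 + p.2)) ∈ box H H

end Box

section Star

variable {V : Type*} [AddCommGroup V]

/-- the semilinear action of `G_ℚ` on functions: `(σ ⋆ f)(x) = σ (f (σ⁻¹ x))`. -/
def star (act : GQ →* AddMonoid.End V) (σ : GQ) (f : V → Qb) : V → Qb :=
  fun x => σ (f (act σ⁻¹ x))

/-- `f` is equivariant under `σ`. -/
def IsEquiv (act : GQ →* AddMonoid.End V) (σ : GQ) (f : V → Qb) : Prop :=
  ∀ x, f (act σ x) = σ (f x)

end Star

/-- A Hopf order over `ℤ_(ℓ)` in the algebra of `G_ℚ`-equivariant functions `V → ℚ̄`. -/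
structure IsHopfOrder (ℓ : ℕ) {V : Type} [AddCommGroup V] (act : GQ →* AddMonoid.End V)
    (H : Subalgebra (Zl ℓ) (V → Qb)) : Prop where
  equivariant : ∀ h ∈ H, ∀ σ : GQ, IsEquiv act σ h
  fg : (Subalgebra.toSubmodule H).FG
  span_top : Submodule.span Qb (H : Set (V → Qb)) = ⊤
  comul : ComulClosed (Subalgebra.toSubmodule H)

/-- A Hopf order over a valuation ring `A` of `ℚ̄` in the algebra of all functions `V → ℚ̄`,
generated by inertia-equivariant functions. -/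
structure IsHopfOrderA (A : ValuationSubring Qb) {V : Type} [AddCommGroup V]
    (act : GQ →* AddMonoid.End V) (H : Subalgebra A (V → Qb)) : Prop where
  integral : ∀ h ∈ H, ∀ x, h x ∈ A
  span_top : Submodule.span Qb (H : Set (V → Qb)) = ⊤
  comul : ComulClosed (Subalgebra.toSubmodule H)
  gen : ∃ 𝒢 : Set (V → Qb), H = Algebra.adjoin A 𝒢 ∧
    ∀ f ∈ 𝒢, ∀ σ ∈ A.inertiaSubgroupIn ℚ, IsEquiv act σ f

end Fermat.Agent.FLAT
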